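import Mathlib.RingTheory.Discriminant
import Mathlib.RingTheory.Norm.Transitivity
import Mathlib.LinearAlgebra.Matrix.Kronecker

/-!
# Cell A2, piece A3 (delta-count), part 1: the tower formula for `Algebra.discr` (helper69)

Mathlib-only.  For a tower `R ⊆ S ⊆ A` of commutative rings, `b` an `R`-basis of `S` and `c` an
`S`-basis of `A`:

* `traceMatrix_smulTower'` : the Gram matrix of the trace form of `A / R` in the product basis is
  `(1 ⊗ₖ Gram_R(b)) * comp (L(Gram_S(c)))`, `L` the left regular representation of `S`;
* `discr_smulTower'` : `discr_R (b_i • c_j) = discr_R(b) ^ #c * N_{S/R} (discr_S (c))`;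
* `discr_smulTower'_of_isUnit` : if `discr_S c` is a unit (`A / S` is "étale"), then
  `discr_R (b_i • c_j) = u * discr_R(b) ^ #c` with `u` a unit of `R`.
-/

set_option autoImplicit false

namespace Fermat.Agent.A2.H69

open Matrix Module
open scoped Kronecker

variable {R S A : Type*} [CommRing R] [CommRing S] [CommRing A]
  [Algebra R S] [Algebra S A] [Algebra R A] [IsScalarTower R S A]
variable {n m : Type*} [Fintype n] [Fintype m] [DecidableEq n] [DecidableEq m]

/-- `Tr_{S/R}(b_i * (b_k * t)) = (Gram(b) * L(t))_{ik}`. -/
theorem trace_mul_mul_eq (b : Basis n R S) (t : S) (i k : n) :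
    Algebra.trace R S (b i * (b k * t)) =
      (Algebra.traceMatrix R b * Algebra.leftMulMatrix b t) i k := by
  have h1 : b k * t = ∑ s, (Algebra.leftMulMatrix b t s k) • b s := by
    have := b.sum_repr (t * b k)
    rw [mul_comm (b k) t, ← this]
    refine Finset.sum_congr rfl fun s _ => ?_
    rw [Algebra.leftMulMatrix_eq_repr_mul]
  rw [h1, Finset.mul_sum, map_sum, Matrix.mul_apply]
  refine Finset.sum_congr rfl fun s _ => ?_
  rw [mul_smul_comm, map_smul, smul_eq_mul, Algebra.traceMatrix_apply,
    Algebra.traceForm_apply, mul_comm]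

/-- The Gram matrix of the trace form in a product basis. -/
theorem traceMatrix_smulTower' (b : Basis n R S) (c : Basis m S A) :
    Algebra.traceMatrix R (b.smulTower' c) =
      ((1 : Matrix m m R) ⊗ₖ Algebra.traceMatrix R b) *
        ((Algebra.traceMatrix S c).map (Algebra.leftMulMatrix b)).comp m m n n R := by
  have : Module.Free R S := Module.Free.of_basis b
  have : Module.Finite R S := Module.Finite.of_basis b
  have : Module.Free S A := Module.Free.of_basis c
  have : Module.Finite S A := Module.Finite.of_basis c
  ext ⟨j, i⟩ ⟨l, k⟩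
  rw [Algebra.traceMatrix_apply, Algebra.traceForm_apply, Basis.smulTower'_apply,
    Basis.smulTower'_apply]
  simp only
  have h1 : (b i • c j) * (b k • c l) = (b i * b k) • (c j * c l) := by
    rw [smul_mul_smul_comm]
  rw [h1, ← Algebra.trace_trace (R := R) (S := S) (T := A), map_smul, smul_eq_mul, mul_assoc,
    trace_mul_mul_eq, Matrix.mul_apply, Matrix.mul_apply, Fintype.sum_prod_type]
  rw [Finset.sum_eq_single j]
  · refine Finset.sum_congr rfl fun s _ => ?_
    simp [Matrix.comp_apply, Algebra.traceMatrix_apply, Algebra.traceForm_apply]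
  · intro j' _ hj'
    refine Finset.sum_eq_zero fun s _ => ?_
    simp [hj'.symm]
  · intro h
    exact absurd (Finset.mem_univ j) h

/-- **Tower formula for discriminants.** -/
theorem discr_smulTower' (b : Basis n R S) (c : Basis m S A) :
    Algebra.discr R (b.smulTower' c) =
      Algebra.discr R b ^ Fintype.card m * Algebra.norm R (Algebra.discr S c) := by
  rw [Algebra.discr_def, traceMatrix_smulTower', Matrix.det_mul, Matrix.det_kronecker,
    Matrix.det_one, one_pow, one_mul]
  congr 1
  rw [Algebra.norm_eq_matrix_det b, Algebra.discr_def]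
  exact (Matrix.det_det (Algebra.traceMatrix S c) (Algebra.leftMulMatrix b).toRingHom).symm

/-- If the upper extension has unit discriminant, the discriminant of the tower is a unit times a
power of the discriminant of the lower extension. -/
theorem discr_smulTower'_of_isUnit (b : Basis n R S) (c : Basis m S A)
    (hc : IsUnit (Algebra.discr S c)) :
    ∃ u : R, IsUnit u ∧
      Algebra.discr R (b.smulTower' c) = u * Algebra.discr R b ^ Fintype.card m := by
  refine ⟨Algebra.norm R (Algebra.discr S c), ?_, ?_⟩
  · exact hc.map (Algebra.norm R)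
  · rw [discr_smulTower', mul_comm]

end Fermat.Agent.A2.H69
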