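import Mathlib.RingTheory.Discriminant
import Mathlib.RingTheory.Norm.Transitivity
import Mathlib.RingTheory.Trace.Basic
import Mathlib.RingTheory.IntegralClosure.IntegrallyClosed
import Mathlib.RingTheory.Localization.Integral
import Mathlib.FieldTheory.Minpoly.IsIntegrallyClosed
import Mathlib.FieldTheory.IntermediateField.Adjoin.Basic
import Mathlib.FieldTheory.Perfect
import Mathlib.FieldTheory.Separable
import Mathlib.LinearAlgebra.Matrix.Adjugate
import Mathlib.LinearAlgebra.FiniteDimensional.Basic
import Mathlib.Tactic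
import Fermat.Agent.A2.H69.DiscrTower

/-!
# Cell A2, piece A3 (delta-count), part 2: Kummer extensions with unit generators (helper69)

Mathlib-only.  `O` an integrally closed domain with fraction field `F` of characteristic `0`,
`m` invertible in `O`, `L = F(s)` a finite extension generated by a set `s` of elements `G` with
`G ^ m ∈ F` and `G`, `G⁻¹` integral over `O` (i.e. `G ^ m` is a unit of `O`).

* `exists_basis_isIntUnit_discr` : `L / F` has a basis consisting of elements integral over `O`
  whose discriminant is a unit of `O` ("the Kummer cover is étale").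

`IsIntUnit O z` : `z ≠ 0`, and `z`, `z⁻¹` are integral over `O`.
-/

set_option autoImplicit false

namespace Fermat.Agent.A2.H69

open Polynomial Module IntermediateField

universe u

/-- `z` is nonzero and both `z` and `z⁻¹` are integral over `O`. -/
def IsIntUnit (O : Type*) [CommRing O] {L : Type*} [Field L] [Algebra O L] (z : L) : Prop :=
  z ≠ 0 ∧ IsIntegral O z ∧ IsIntegral O z⁻¹

section Basic

variable {O : Type*} [CommRing O] {L : Type*} [Field L] [Algebra O L]

theorem IsIntUnit.mul {x y : L} (hx : IsIntUnit O x) (hy : IsIntUnit O y) :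
    IsIntUnit O (x * y) :=
  ⟨mul_ne_zero hx.1 hy.1, hx.2.1.mul hy.2.1, by rw [mul_inv]; exact hx.2.2.mul hy.2.2⟩

theorem IsIntUnit.inv {x : L} (hx : IsIntUnit O x) : IsIntUnit O x⁻¹ :=
  ⟨inv_ne_zero hx.1, hx.2.2, by rw [inv_inv]; exact hx.2.1⟩

theorem IsIntUnit.pow {x : L} (hx : IsIntUnit O x) (n : ℕ) : IsIntUnit O (x ^ n) :=
  ⟨pow_ne_zero n hx.1, hx.2.1.pow n, by rw [← inv_pow]; exact hx.2.2.pow n⟩

theorem isIntUnit_one : IsIntUnit O (1 : L) :=
  ⟨one_ne_zero, isIntegral_one, by rw [inv_one]; exact isIntegral_one⟩

theorem IsIntUnit.neg {x : L} (hx : IsIntUnit O x) : IsIntUnit O (-x) :=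
  ⟨neg_ne_zero.2 hx.1, hx.2.1.neg, by rw [inv_neg]; exact hx.2.2.neg⟩

theorem isIntUnit_neg_one_pow (n : ℕ) : IsIntUnit O ((-1 : L) ^ n) :=
  (isIntUnit_one.neg).pow n

/-- If `x * y` is an integral unit and `x`, `y` are integral, then `x` is an integral unit. -/
theorem IsIntUnit.of_mul {x y : L} (h : IsIntUnit O (x * y)) (hx : IsIntegral O x)
    (hy : IsIntegral O y) : IsIntUnit O x := by
  have hx0 : x ≠ 0 := left_ne_zero_of_mul h.1
  have hy0 : y ≠ 0 := right_ne_zero_of_mul h.1
  refine ⟨hx0, hx, ?_⟩
  have : x⁻¹ = y * (x * y)⁻¹ := by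
    field_simp
  rw [this]
  exact hy.mul h.2.2

theorem isIntUnit_of_isUnit {a : O} (ha : IsUnit a) (h0 : algebraMap O L a ≠ 0) :
    IsIntUnit O (algebraMap O L a) := by
  obtain ⟨u, rfl⟩ := ha
  refine ⟨h0, isIntegral_algebraMap, ?_⟩
  have : (algebraMap O L (u : O))⁻¹ = algebraMap O L ((u⁻¹ : Oˣ) : O) := by
    apply inv_eq_of_mul_eq_one_right
    rw [← map_mul, Units.mul_inv, map_one]
  rw [this]
  exact isIntegral_algebraMap

end Basic

section Tower

variable {O : Type*} [CommRing O] {F L : Type*} [Field F] [Field L] [Algebra O F] [Algebra F L]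
  [Algebra O L] [IsScalarTower O F L]

theorem isIntUnit_algebraMap {z : F} (hz : IsIntUnit O z) :
    IsIntUnit O (algebraMap F L z) :=
  ⟨(_root_.map_ne_zero _).2 hz.1, hz.2.1.algebraMap, by
    rw [← map_inv₀]; exact hz.2.2.algebraMap⟩

theorem isIntUnit_of_algebraMap {z : F} (hz : IsIntUnit O (algebraMap F L z)) :
    IsIntUnit O z :=
  ⟨(_root_.map_ne_zero _).1 hz.1,
    (isIntegral_algebraMap_iff (algebraMap F L).injective).1 hz.2.1, by
    have := hz.2.2
    rw [← map_inv₀] at this
    exact (isIntegral_algebraMap_iff (algebraMap F L).injective).1 this⟩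

theorem isIntUnit_norm [FiniteDimensional F L] {z : L} (hz : IsIntUnit O z) :
    IsIntUnit O (Algebra.norm F z) := by
  have h1 : Algebra.norm F z * Algebra.norm F z⁻¹ = 1 := by
    rw [← map_mul, mul_inv_cancel₀ hz.1, map_one]
  refine ⟨left_ne_zero_of_mul_eq_one h1, Algebra.isIntegral_norm F hz.2.1, ?_⟩
  rw [inv_eq_of_mul_eq_one_right h1]
  exact Algebra.isIntegral_norm F hz.2.2

end Tower

section Change

variable {O O₁ : Type*} [CommRing O] [CommRing O₁] [Algebra O O₁] {L : Type*} [Field L]
  [Algebra O L] [Algebra O₁ L] [IsScalarTower O O₁ L]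

theorem IsIntUnit.tower_top {z : L} (hz : IsIntUnit O z) : IsIntUnit O₁ z :=
  ⟨hz.1, hz.2.1.tower_top, hz.2.2.tower_top⟩

theorem IsIntUnit.trans [Algebra.IsIntegral O O₁] {z : L} (hz : IsIntUnit O₁ z) :
    IsIntUnit O z :=
  ⟨hz.1, isIntegral_trans _ hz.2.1, isIntegral_trans _ hz.2.2⟩

end Change

section Simple

variable {O F : Type*} [CommRing O] [IsDomain O] [IsIntegrallyClosed O] [Field F] [Algebra O F]
  [IsFractionRing O F] {L : Type*} [Field L] [Algebra F L] [Algebra O L] [IsScalarTower O F L]

omit [IsDomain O] [IsIntegrallyClosed O] in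
include F in
variable (O F L) in
theorem injective_algebraMap_of_tower : Function.Injective (algebraMap O L) := by
  rw [IsScalarTower.algebraMap_eq O F L]
  exact (algebraMap F L).injective.comp (IsFractionRing.injective O F)

/-- **Key computation.**  If `G ^ m ∈ F`, `G` is an integral unit and `m` is an integral unit,
then the derivative of the minimal polynomial of `G` over `F`, evaluated at `G`, is an integral
unit: `X ^ m - G ^ m = μ ν` gives `m G ^ (m-1) = μ'(G) ν(G)`. -/
theorem isIntUnit_aeval_derivative_minpoly (m : ℕ) (hm : IsIntUnit O (m : L)) {G : L}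
    (hG : IsIntUnit O G) (hGm : G ^ m ∈ (algebraMap F L).range) :
    IsIntUnit O (aeval G (derivative (minpoly F G))) := by
  have hGint : IsIntegral O G := hG.2.1
  have hinj : Function.Injective (algebraMap O L) := injective_algebraMap_of_tower O F L
  have : FaithfulSMul O L := (faithfulSMul_iff_algebraMap_injective O L).2 hinj
  have hmin : minpoly F G = (minpoly O G).map (algebraMap O F) :=
    minpoly.isIntegrallyClosed_eq_field_fractions' F hGint
  obtain ⟨a, ha⟩ := hGm
  have haint : IsIntegral O a := by
    have h1 : IsIntegral O (algebraMap F L a) := by rw [ha]; exact hGint.pow m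
    exact (isIntegral_algebraMap_iff (algebraMap F L).injective).1 h1
  obtain ⟨ε, hε⟩ := (IsIntegrallyClosed.isIntegral_iff (R := O) (K := F)).1 haint
  set p : O[X] := X ^ m - C ε with hp
  have hpG : aeval G p = 0 := by
    rw [hp, map_sub, map_pow, aeval_X, aeval_C, IsScalarTower.algebraMap_apply O F L, hε, ha,
      sub_self]
  obtain ⟨ν, hν⟩ := minpoly.isIntegrallyClosed_dvd hGint hpG
  have hder : aeval G (derivative p) =
      aeval G (derivative (minpoly O G)) * aeval G ν := by
    rw [hν, derivative_mul, map_add, map_mul, map_mul, minpoly.aeval, zero_mul, add_zero]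
  have hder2 : aeval G (derivative p) = (m : L) * G ^ (m - 1) := by
    rw [hp, derivative_sub, derivative_C, sub_zero, derivative_X_pow, map_mul, map_pow, aeval_X,
      aeval_C, map_natCast]
  have hunit : IsIntUnit O (aeval G (derivative (minpoly O G)) * aeval G ν) := by
    rw [← hder, hder2]
    exact hm.mul (hG.pow _)
  have hint : ∀ P : O[X], IsIntegral O (aeval G P) := fun P => by
    have hmem : aeval G P ∈ Algebra.adjoin O ({G} : Set L) := by
      rw [Algebra.adjoin_singleton_eq_range_aeval]
      exact ⟨P, rfl⟩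
    exact IsIntegral.of_mem_of_fg _ (hGint.fg_adjoin_singleton) _ hmem
  have h3 := hunit.of_mul (hint _) (hint _)
  rwa [hmin, derivative_map, aeval_map_algebraMap]

/-- The discriminant of the power basis of `F(G) / F` is an integral unit. -/
theorem isIntUnit_discr_adjoin_powerBasis [CharZero F] (m : ℕ) (hm : IsIntUnit O (m : F))
    {G : L} (hG : IsIntUnit O G) (hGm : G ^ m ∈ (algebraMap F L).range) (hGF : IsIntegral F G) :
    IsIntUnit O (Algebra.discr F (IntermediateField.adjoin.powerBasis hGF).basis) := by
  have : FiniteDimensional F F⟮G⟯ := IntermediateField.adjoin.finiteDimensional hGF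
  have : IsScalarTower O F⟮G⟯ L := IsScalarTower.of_algebraMap_eq (fun _ => rfl)
  have hgen : IsIntUnit O (AdjoinSimple.gen F G) := by
    apply isIntUnit_of_algebraMap (L := L)
    rw [AdjoinSimple.algebraMap_gen]
    exact hG
  have hgenm : (AdjoinSimple.gen F G) ^ m ∈ (algebraMap F F⟮G⟯).range := by
    obtain ⟨a, ha⟩ := hGm
    refine ⟨a, ?_⟩
    apply (algebraMap F⟮G⟯ L).injective
    rw [← IsScalarTower.algebraMap_apply, ha, map_pow, AdjoinSimple.algebraMap_gen]
  have hm' : IsIntUnit O (m : F⟮G⟯) := by
    have := isIntUnit_algebraMap (L := F⟮G⟯) hm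
    rwa [map_natCast] at this
  have key := isIntUnit_aeval_derivative_minpoly (F := F) m hm' hgen hgenm
  rw [Algebra.discr_powerBasis_eq_norm]
  refine (isIntUnit_neg_one_pow _).mul ?_
  rw [IntermediateField.adjoin.powerBasis_gen]
  exact isIntUnit_norm key

end Simple

section Main

/-- Auxiliary form of `exists_basis_isIntUnit_discr` for the induction on the degree. -/
theorem exists_basis_isIntUnit_discr_aux (n : ℕ) :
    ∀ {O F L : Type u} [CommRing O] [IsDomain O] [IsIntegrallyClosed O] [Field F] [Algebra O F]
      [IsFractionRing O F] [CharZero F] [Field L] [Algebra F L] [Algebra O L]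
      [IsScalarTower O F L] [FiniteDimensional F L]
      (m : ℕ) (_ : IsIntUnit O (m : F)) (s : Set L) (_ : IntermediateField.adjoin F s = ⊤)
      (_ : ∀ G ∈ s, G ^ m ∈ (algebraMap F L).range ∧ IsIntUnit O G), finrank F L = n →
      ∃ y : Basis (Fin n) F L, (∀ i, IsIntegral O (y i)) ∧ IsIntUnit O (Algebra.discr F y) := by
  induction n using Nat.strong_induction_on with
  | _ n ih =>
    intro O F L _ _ _ _ _ _ _ _ _ _ _ _ m hm s hs hG hn
    by_cases hall : ∀ G ∈ s, G ∈ (algebraMap F L).range
    · -- base case: `L = F`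
      have hbot : IntermediateField.adjoin F s = ⊥ := by
        rw [IntermediateField.adjoin_eq_bot_iff]
        intro G hGs
        rw [SetLike.mem_coe, IntermediateField.mem_bot]
        exact hall G hGs
      have h1 : finrank F L = 1 := by
        rw [← IntermediateField.bot_eq_top_iff_finrank_eq_one, ← hbot, hs]
      have hn1 : n = 1 := by rw [← hn, h1]
      subst hn1
      refine ⟨FiniteDimensional.basisSingleton (Fin 1) h1 1 one_ne_zero, fun i => ?_, ?_⟩
      · rw [FiniteDimensional.basisSingleton_apply]
        exact isIntegral_one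
      · have : Algebra.discr F (FiniteDimensional.basisSingleton (Fin 1) h1 (1 : L) one_ne_zero) = 1 := by
          rw [Algebra.discr_def, Matrix.det_fin_one, Algebra.traceMatrix_apply,
            Algebra.traceForm_apply, FiniteDimensional.basisSingleton_apply, one_mul,
            ← map_one (algebraMap F L), Algebra.trace_algebraMap, h1, one_smul]
        rw [this]
        exact isIntUnit_one
    · -- inductive step
      push Not at hall
      obtain ⟨G, hGs, hGF⟩ := hall
      have hGL : IsIntegral F G := IsIntegral.of_finite F G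
      have hfd1 : FiniteDimensional F F⟮G⟯ := IntermediateField.adjoin.finiteDimensional hGL
      have hd1 : finrank F F⟮G⟯ ≠ 1 := fun h =>
        hGF (IntermediateField.mem_bot.1 (IntermediateField.finrank_adjoin_simple_eq_one_iff.1 h))
      have hmul : finrank F F⟮G⟯ * finrank F⟮G⟯ L = n := by
        rw [Module.finrank_mul_finrank, hn]
      have hpos1 : 0 < finrank F F⟮G⟯ := finrank_pos
      have hpos2 : 0 < finrank F⟮G⟯ L := finrank_pos
      have hlt : finrank F⟮G⟯ L < n := by
        have h2 : 2 ≤ finrank F F⟮G⟯ := by omega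
        nlinarith
      -- the integral closure `O₁` of `O` in `F(G)`
      have hT : IsScalarTower O F⟮G⟯ L := IsScalarTower.of_algebraMap_eq (fun _ => rfl)
      have hIC : IsIntegrallyClosed (integralClosure O F⟮G⟯) :=
        integralClosure.isIntegrallyClosedOfFiniteExtension F
      have hFR : IsFractionRing (integralClosure O F⟮G⟯) F⟮G⟯ :=
        integralClosure.isFractionRing_of_finite_extension F F⟮G⟯
      have hT1 : IsScalarTower (integralClosure O F⟮G⟯) F⟮G⟯ L :=
        IsScalarTower.of_algebraMap_eq (fun _ => rfl)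
      have hT2 : IsScalarTower O (integralClosure O F⟮G⟯) L :=
        IsScalarTower.of_algebraMap_eq (fun _ => rfl)
      have hm₁ : IsIntUnit (integralClosure O F⟮G⟯) (m : F⟮G⟯) := by
        have h1 := isIntUnit_algebraMap (L := F⟮G⟯) hm
        rw [map_natCast] at h1
        exact h1.tower_top
      have hs₁ : IntermediateField.adjoin F⟮G⟯ s = ⊤ :=
        IntermediateField.adjoin_eq_top_of_adjoin_eq_top F hs
      have hG₁ : ∀ G' ∈ s, G' ^ m ∈ (algebraMap F⟮G⟯ L).range ∧
          IsIntUnit (integralClosure O F⟮G⟯) G' := by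
        intro G' hG'
        obtain ⟨⟨a, ha⟩, hu⟩ := hG G' hG'
        refine ⟨⟨algebraMap F F⟮G⟯ a, ?_⟩, hu.tower_top⟩
        rw [← IsScalarTower.algebraMap_apply, ha]
      obtain ⟨y₁, hy₁, hdy₁⟩ := ih _ hlt (O := integralClosure O F⟮G⟯) (F := F⟮G⟯) (L := L)
        m hm₁ s hs₁ hG₁ rfl
      have hdim : (IntermediateField.adjoin.powerBasis hGL).dim = finrank F F⟮G⟯ :=
        (PowerBasis.finrank (IntermediateField.adjoin.powerBasis hGL)).symm
      have hcard : Fintype.card
          (Fin (finrank F⟮G⟯ L) × Fin (IntermediateField.adjoin.powerBasis hGL).dim) =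
          Fintype.card (Fin n) := by
        rw [Fintype.card_prod, Fintype.card_fin, Fintype.card_fin, Fintype.card_fin, hdim,
          mul_comm]
        exact hmul
      refine ⟨((IntermediateField.adjoin.powerBasis hGL).basis.smulTower' y₁).reindex
        (Fintype.equivOfCardEq hcard), fun i => ?_, ?_⟩
      · rw [Basis.reindex_apply, Basis.smulTower'_apply, PowerBasis.basis_eq_pow,
          Algebra.smul_def, map_pow, IntermediateField.adjoin.powerBasis_gen,
          IntermediateField.AdjoinSimple.algebraMap_gen]
        exact ((hG G hGs).2.2.1.pow _).mul (isIntegral_trans _ (hy₁ _))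
      · have h1 : Algebra.discr F
            ⇑(((IntermediateField.adjoin.powerBasis hGL).basis.smulTower' y₁).reindex
              (Fintype.equivOfCardEq hcard)) =
            Algebra.discr F ((IntermediateField.adjoin.powerBasis hGL).basis.smulTower' y₁) := by
          rw [Basis.coe_reindex]
          exact Algebra.discr_reindex F _ _
        rw [h1, discr_smulTower']
        refine IsIntUnit.mul (IsIntUnit.pow ?_ _) ?_
        · exact isIntUnit_discr_adjoin_powerBasis m hm (hG G hGs).2 (hG G hGs).1 hGL
        · exact isIntUnit_norm hdy₁.trans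

/-- **Kummer extensions generated by roots of units are étale**: `L = F(s)`, every `G ∈ s` has
`G ^ m ∈ F` and is an integral unit over the integrally closed domain `O` (`Frac O = F`, `m`
invertible).  Then `L / F` has a basis of integral elements with unit discriminant. -/
theorem exists_basis_isIntUnit_discr {O F L : Type u} [CommRing O] [IsDomain O]
    [IsIntegrallyClosed O] [Field F] [Algebra O F] [IsFractionRing O F] [CharZero F] [Field L]
    [Algebra F L] [Algebra O L] [IsScalarTower O F L] [FiniteDimensional F L]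
    (m : ℕ) (hm : IsIntUnit O (m : F)) (s : Set L) (hs : IntermediateField.adjoin F s = ⊤)
    (hG : ∀ G ∈ s, G ^ m ∈ (algebraMap F L).range ∧ IsIntUnit O G) :
    ∃ y : Basis (Fin (finrank F L)) F L,
      (∀ i, IsIntegral O (y i)) ∧ IsIntUnit O (Algebra.discr F y) :=
  exists_basis_isIntUnit_discr_aux _ m hm s hs hG rfl

end Main

section Cramer

variable {O F L : Type*} [CommRing O] [Field F] [Algebra O F] [Field L] [Algebra F L]
  [Algebra O L] [IsScalarTower O F L] [FiniteDimensional F L]
  {ι : Type*} [Fintype ι] [DecidableEq ι]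

/-- **Cramer.**  If a basis `y` of `L / F` consists of integral elements and has an integral unit
as discriminant, the coordinates of every integral element are integral. -/
theorem isIntegral_repr_of_isIntUnit_discr (y : Basis ι F L) (hy : ∀ i, IsIntegral O (y i))
    (hd : IsIntUnit O (Algebra.discr F y)) {z : L} (hz : IsIntegral O z) (i : ι) :
    IsIntegral O (y.repr z i) := by
  set T := Algebra.traceMatrix F y with hT
  have hTint : ∀ i j, IsIntegral O (T i j) := fun i j => by
    rw [hT, Algebra.traceMatrix_apply, Algebra.traceForm_apply]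
    exact Algebra.isIntegral_trace ((hy i).mul (hy j))
  set τ : ι → F := fun j => Algebra.trace F L (z * y j) with hτ
  have hτint : ∀ j, IsIntegral O (τ j) := fun j => Algebra.isIntegral_trace (hz.mul (hy j))
  have h1 : T.mulVec (fun i => y.repr z i) = τ := by
    ext j
    have hz' : z = ∑ i, y.repr z i • y i := (y.sum_repr z).symm
    simp only [Matrix.mulVec, dotProduct, hτ]
    conv_rhs => rw [hz', Finset.sum_mul, map_sum]
    refine Finset.sum_congr rfl fun i _ => ?_
    rw [smul_mul_assoc, map_smul, smul_eq_mul, hT, Algebra.traceMatrix_apply,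
      Algebra.traceForm_apply, mul_comm (y j) (y i), mul_comm]
  have h2 : T.det • (fun i => y.repr z i) = T.adjugate.mulVec τ := by
    rw [← h1, Matrix.mulVec_mulVec, Matrix.adjugate_mul, Matrix.smul_mulVec, Matrix.one_mulVec]
  have h3 : y.repr z i = T.det⁻¹ * (T.adjugate.mulVec τ) i := by
    rw [← h2, Pi.smul_apply, smul_eq_mul, ← mul_assoc, inv_mul_cancel₀, one_mul]
    exact hd.1
  rw [h3]
  refine hd.2.2.mul ?_
  simp only [Matrix.mulVec, dotProduct]
  refine IsIntegral.sum _ fun j _ => IsIntegral.mul ?_ (hτint j)
  rw [Matrix.adjugate_apply]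
  refine IsIntegral.det fun a b => ?_
  rw [Matrix.updateRow_apply]
  split_ifs
  · rw [Pi.single_apply]
    split_ifs
    · exact isIntegral_one
    · exact isIntegral_zero
  · exact hTint a b

end Cramer

end Fermat.Agent.A2.H69
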