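import Mathlib.RingTheory.DedekindDomain.PID
import Mathlib.RingTheory.DedekindDomain.AdicValuation
import Mathlib.RingTheory.DedekindDomain.IntegralClosure
import Mathlib.RingTheory.DedekindDomain.Dvr
import Mathlib.RingTheory.DedekindDomain.Factorization
import Mathlib.RingTheory.DedekindDomain.FiniteAdeleRing
import Fermat.Agent.A2.H69.KummerDiscr
import Fermat.Agent.A2.H849.Hartogs

/-!
# Cell A2, piece A3 (delta-count), part 3: divisible Kummer covers are étale over a DVR (helper69)

`A` a discrete valuation ring, `K = Frac A` of characteristic `0`, `F / K` finite, `L = F(s)`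
finite over `F`, generated by elements `G` with `G ^ m = g ∈ F`, `m ∈ Aˣ`, such that `m ∣ div g`
on every discrete valuation subring of `F` containing `A` (hypothesis in the `DivisibleDiv` form
of the frozen `A2/Spec.lean`).

* `exists_pow_mul_isIntUnit` : (K0, after helper994's S18 b3 `UnitPow`) in a principal Dedekind
  domain, an element whose valuations are `m`-th powers is a unit times an `m`-th power;
* `exists_basis_isIntUnit_discr_of_divisible` : `L / F` has a basis of `A`-integral elements whose
  discriminant is an `A`-integral unit.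

Application: `A = R[x]_(π)` for a height-one prime `π ≠ w` of `R[x]`: the cover `B' / B` is
étale over `π`, hence `disc(B'/R[x]) = unit · disc(B/R[x])^h` at `π` (tower formula).
-/

set_option autoImplicit false

namespace Fermat.Agent.A2.H69

open IsDedekindDomain IsDedekindDomain.HeightOneSpectrum WithZero Module

universe u

section UnitPow

variable {C F : Type*} [CommRing C] [IsDedekindDomain C] [Field F] [Algebra C F]
  [IsFractionRing C F]

open Classical in
/-- A generator of a prime has valuation `exp (-1)` at that prime and `1` at the others. -/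
theorem valuation_generator_eq (q q' : HeightOneSpectrum C) (p : C)
    (hp : q.asIdeal = Ideal.span {p}) :
    q'.valuation F (algebraMap C F p) = if q' = q then exp (-1 : ℤ) else 1 := by
  have hp0 : p ≠ 0 := by
    rintro rfl
    apply q.ne_bot
    rw [hp, Ideal.span_singleton_eq_bot]
  rw [valuation_of_algebraMap]
  split_ifs with hq
  · subst hq
    exact intValuation_singleton _ hp0 hp
  · refine le_antisymm (intValuation_le_one _ _) (not_lt.1 fun hlt => hq ?_)
    rw [intValuation_lt_one_iff_mem] at hlt
    have hle : q.asIdeal ≤ q'.asIdeal := by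
      rw [hp, Ideal.span_singleton_le_iff_mem]
      exact hlt
    have : q.asIdeal = q'.asIdeal :=
      (q.isMaximal.eq_of_le q'.isPrime.ne_top hle)
    exact (HeightOneSpectrum.ext this).symm

variable [IsPrincipalIdealRing C]

/-- (K0) In a principal Dedekind domain, an element of the fraction field whose valuations are
all `m`-th powers of valuations is an integral unit times an `m`-th power. -/
theorem exists_pow_mul_isIntUnit (m : ℕ) (u : F) (hu : u ≠ 0)
    (h : ∀ q : HeightOneSpectrum C, ∃ t : F, t ≠ 0 ∧ q.valuation F u = q.valuation F t ^ m) :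
    ∃ π : F, π ≠ 0 ∧ IsIntUnit C (u * (π ^ m)⁻¹) := by
  classical
  have hinj : Function.Injective (algebraMap C F) := IsFractionRing.injective C F
  -- finite support
  have hfin : {q : HeightOneSpectrum C | q.valuation F u ≠ 1}.Finite := by
    refine ((Support.finite C u).union (Support.finite C u⁻¹)).subset fun q hq => ?_
    rcases lt_or_gt_of_ne hq with hlt | hgt
    · right
      show 1 < q.valuation F u⁻¹
      rw [map_inv₀]
      exact (one_lt_inv₀ (by simpa using (Valuation.ne_zero_iff _).2 hu |> zero_lt_iff.2)).2 hlt
    · left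
      exact hgt
  set T : Finset (HeightOneSpectrum C) := hfin.toFinset with hT
  have hTmem : ∀ q, q ∉ T → q.valuation F u = 1 := fun q hq => by
    by_contra hne
    exact hq (hfin.mem_toFinset.2 hne)
  -- generators and exponents
  have hgen : ∀ q : HeightOneSpectrum C, ∃ p : C, q.asIdeal = Ideal.span {p} := fun q =>
    (IsPrincipalIdealRing.principal q.asIdeal).principal
  choose p hp using hgen
  choose t ht0 ht using h
  set k : HeightOneSpectrum C → ℤ := fun q => log (q.valuation F (t q)) with hk
  have hp0 : ∀ q, algebraMap C F (p q) ≠ 0 := fun q => by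
    rw [Ne, map_eq_zero_iff _ hinj]
    rintro h0
    apply q.ne_bot
    rw [hp q, h0, Ideal.span_singleton_eq_bot]
  set π : F := ∏ q ∈ T, (algebraMap C F (p q)) ^ (-(k q)) with hπ
  have hπ0 : π ≠ 0 := Finset.prod_ne_zero_iff.2 fun q _ => zpow_ne_zero _ (hp0 q)
  have hvt : ∀ q : HeightOneSpectrum C, q.valuation F (t q) = exp (k q) := fun q => by
    rw [hk, exp_log ((Valuation.ne_zero_iff _).2 (ht0 q))]
  have hvu : ∀ q : HeightOneSpectrum C, q.valuation F u = exp (k q) ^ m := fun q => by
    rw [ht q, hvt q]
  have hvπ : ∀ q' : HeightOneSpectrum C, q'.valuation F π =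
      if q' ∈ T then exp (k q') else 1 := by
    intro q'
    rw [hπ, map_prod]
    simp_rw [map_zpow₀, valuation_generator_eq (F := F) _ q' _ (hp _)]
    split_ifs with hq'
    · rw [Finset.prod_eq_single q']
      · rw [if_pos rfl, ← exp_zsmul]
        simp
      · intro q _ hne
        rw [if_neg (Ne.symm hne), one_zpow]
      · intro hn
        exact absurd hq' hn
    · refine Finset.prod_eq_one fun q hq => ?_
      rw [if_neg (fun h : q' = q => hq' (h ▸ hq)), one_zpow]
  -- the unit
  have hval1 : ∀ q : HeightOneSpectrum C, q.valuation F (u * (π ^ m)⁻¹) = 1 := by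
    intro q
    rw [map_mul, map_inv₀, map_pow, hvπ q]
    split_ifs with hq
    · rw [hvu q]
      exact mul_inv_cancel₀ (pow_ne_zero _ exp_ne_zero)
    · rw [hTmem q hq, one_pow, inv_one, mul_one]
  have hε0 : u * (π ^ m)⁻¹ ≠ 0 := mul_ne_zero hu (inv_ne_zero (pow_ne_zero _ hπ0))
  obtain ⟨c, hc⟩ := mem_integers_of_valuation_le_one F (u * (π ^ m)⁻¹) fun q => (hval1 q).le
  obtain ⟨c', hc'⟩ := mem_integers_of_valuation_le_one F (u * (π ^ m)⁻¹)⁻¹ fun q => by
    rw [map_inv₀, hval1 q, inv_one]
  refine ⟨π, hπ0, hε0, ?_, ?_⟩
  · rw [← hc]; exact isIntegral_algebraMap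
  · rw [← hc']; exact isIntegral_algebraMap

end UnitPow

section LocVal

variable {C F : Type*} [CommRing C] [IsDedekindDomain C] [Field F] [Algebra C F]
  [IsFractionRing C F]

/-- Elements of the localisation at `q` have `q`-adic valuation `≤ 1`. -/
theorem valuation_le_one_of_mem_locAt (q : HeightOneSpectrum C) {x : F}
    (hx : x ∈ H849.locAt F q.asIdeal) : q.valuation F x ≤ 1 := by
  obtain ⟨a, s, hs, rfl⟩ := (H849.mem_locAt_iff q.asIdeal x).1 hx
  rw [map_mul, map_inv₀, valuation_of_algebraMap, valuation_of_algebraMap,
    intValuation_eq_one_iff.2 hs, inv_one, mul_one]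
  exact intValuation_le_one _ _

/-- Units of the localisation at `q` have `q`-adic valuation `1`. -/
theorem valuation_eq_one_of_mem_locAt (q : HeightOneSpectrum C) {x : F} (hx0 : x ≠ 0)
    (hx : x ∈ H849.locAt F q.asIdeal) (hx' : x⁻¹ ∈ H849.locAt F q.asIdeal) :
    q.valuation F x = 1 := by
  refine le_antisymm (valuation_le_one_of_mem_locAt q hx) ?_
  have h1 := valuation_le_one_of_mem_locAt q hx'
  rw [map_inv₀] at h1
  have h0 : q.valuation F x ≠ 0 := (Valuation.ne_zero_iff _).2 hx0
  exact (inv_le_one₀ (zero_lt_iff.2 h0)).1 h1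

end LocVal

section Main

variable {A K : Type*} {F L : Type u} [CommRing A] [IsDomain A] [IsDiscreteValuationRing A]
  [Field K] [Algebra A K] [IsFractionRing A K] [CharZero K]
  [Field F] [Algebra K F] [Algebra A F] [IsScalarTower A K F] [FiniteDimensional K F]
  [Field L] [Algebra F L] [Algebra A L] [IsScalarTower A F L] [FiniteDimensional F L]

include K in
/-- The integral closure of a DVR in a finite extension of its fraction field (char. 0) is a
principal ideal domain. -/
theorem isPrincipalIdealRing_integralClosure_of_dvr :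
    IsPrincipalIdealRing (integralClosure A F) := by
  have : CharZero F := charZero_of_injective_algebraMap (algebraMap K F).injective
  have hinjAF : Function.Injective (algebraMap A F) := by
    rw [IsScalarTower.algebraMap_eq A K F]
    exact (algebraMap K F).injective.comp (IsFractionRing.injective A K)
  have : Module.IsTorsionFree A F := Module.isTorsionFree_iff_algebraMap_injective.2 hinjAF
  have hDed : IsDedekindDomain (integralClosure A F) := integralClosure.isDedekindDomain A K F
  have : Module.Finite A (integralClosure A F) := IsIntegralClosure.finite A K F _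
  have hloc : IsLocalization (Algebra.algebraMapSubmonoid (integralClosure A F)
      (IsLocalRing.maximalIdeal A).primeCompl) (integralClosure A F) := by
    apply IsLocalization.self
    rintro _ ⟨a, ha, rfl⟩
    have hu : IsUnit a := by
      by_contra hnu
      exact ha ((IsLocalRing.mem_maximalIdeal a).2 hnu)
    exact hu.map _
  exact IsDedekindDomain.isPrincipalIdealRing_localization_over_prime (integralClosure A F)
    (IsLocalRing.maximalIdeal A) (IsDiscreteValuationRing.not_a_field A)

include K in
/-- In the integral closure `O` of a DVR `A` in `F`: an element `g ≠ 0` which is locally a unit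
times an `m`-th power at every discrete valuation subring of `F` containing `A` is globally an
`O`-integral unit times an `m`-th power. -/
theorem exists_pow_mul_isIntUnit_of_divisible (m : ℕ) {g : F} (hg : g ≠ 0)
    (hdiv : ∀ V : ValuationSubring F, IsDiscreteValuationRing V →
      (∀ a : A, algebraMap A F a ∈ V) → ∃ h u : F, h ≠ 0 ∧ u ∈ V ∧ u⁻¹ ∈ V ∧ g = u * h ^ m) :
    ∃ π : F, π ≠ 0 ∧ IsIntUnit (integralClosure A F) (g * (π ^ m)⁻¹) := by
  have : CharZero F := charZero_of_injective_algebraMap (algebraMap K F).injective
  have hDed : IsDedekindDomain (integralClosure A F) := integralClosure.isDedekindDomain A K F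
  have hFR : IsFractionRing (integralClosure A F) F :=
    integralClosure.isFractionRing_of_finite_extension K F
  have hPID : IsPrincipalIdealRing (integralClosure A F) :=
    isPrincipalIdealRing_integralClosure_of_dvr (K := K)
  refine exists_pow_mul_isIntUnit (C := integralClosure A F) m g hg fun q => ?_
  have hdvr : IsDiscreteValuationRing (H849.locAt F q.asIdeal) :=
    IsLocalization.AtPrime.isDiscreteValuationRing_of_dedekind_domain (integralClosure A F)
      q.ne_bot _
  obtain ⟨h, u, hh0, huV, huV', hgu⟩ :=
    hdiv (H849.locValuationSubring q.asIdeal inferInstance)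
      (H849.isDiscreteValuationRing_locValuationSubring q.asIdeal hdvr)
      (fun a => by
        have h1 := H849.algebraMap_mem_locValuationSubring (K := F) q.asIdeal inferInstance
          (algebraMap A (integralClosure A F) a)
        rwa [← IsScalarTower.algebraMap_apply] at h1)
  have hu0 : u ≠ 0 := by
    rintro rfl
    rw [zero_mul] at hgu
    exact hg hgu
  refine ⟨h, hh0, ?_⟩
  rw [hgu, map_mul, map_pow, valuation_eq_one_of_mem_locAt q hu0 huV huV', one_mul]

include K in
/-- **Divisible Kummer covers are étale over a DVR.**  `A` a DVR, `K = Frac A` (char. `0`),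
`F / K` finite, `L = F(s)` finite over `F`, every `G ∈ s` nonzero with `G ^ m = g ∈ F`, `m ∈ Aˣ`,
and `g` locally a unit times an `m`-th power at every discrete valuation subring of `F`
containing `A`.  Then `L / F` has a basis of `A`-integral elements whose discriminant is an
`A`-integral unit. -/
theorem exists_basis_isIntUnit_discr_of_divisible (m : ℕ) (hm : IsUnit (m : A)) (s : Set L)
    (hs : IntermediateField.adjoin F s = ⊤)
    (hG : ∀ G ∈ s, G ≠ 0 ∧ ∃ g : F, algebraMap F L g = G ^ m ∧
      ∀ V : ValuationSubring F, IsDiscreteValuationRing V → (∀ a : A, algebraMap A F a ∈ V) →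
        ∃ h u : F, h ≠ 0 ∧ u ∈ V ∧ u⁻¹ ∈ V ∧ g = u * h ^ m) :
    ∃ y : Basis (Fin (finrank F L)) F L,
      (∀ i, IsIntegral A (y i)) ∧ IsIntUnit A (Algebra.discr F y) := by
  classical
  have hCZ : CharZero F := charZero_of_injective_algebraMap (algebraMap K F).injective
  have hIC : IsIntegrallyClosed (integralClosure A F) :=
    integralClosure.isIntegrallyClosedOfFiniteExtension K
  have hFR : IsFractionRing (integralClosure A F) F :=
    integralClosure.isFractionRing_of_finite_extension K F
  have hT1 : IsScalarTower (integralClosure A F) F L :=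
    IsScalarTower.of_algebraMap_eq (fun _ => rfl)
  have hT2 : IsScalarTower A (integralClosure A F) L :=
    IsScalarTower.of_algebraMap_eq (fun x => by
      rw [IsScalarTower.algebraMap_apply A F L]; rfl)
  have hm0 : 0 < m := by
    rcases Nat.eq_zero_or_pos m with h0 | h0
    · subst h0
      rw [Nat.cast_zero] at hm
      exact absurd hm not_isUnit_zero
    · exact h0
  have hinjAF : Function.Injective (algebraMap A F) := by
    rw [IsScalarTower.algebraMap_eq A K F]
    exact (algebraMap K F).injective.comp (IsFractionRing.injective A K)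
  -- the local generators
  have hex : ∀ G : L, ∃ π : F, π ≠ 0 ∧ (G ∈ s → ∃ g : F, algebraMap F L g = G ^ m ∧
      IsIntUnit (integralClosure A F) (g * (π ^ m)⁻¹)) := by
    intro G
    by_cases hGs : G ∈ s
    · obtain ⟨hG0, g, hgG, hdiv⟩ := hG G hGs
      have hg0 : g ≠ 0 := by
        rintro rfl
        rw [map_zero] at hgG
        exact pow_ne_zero m hG0 hgG.symm
      obtain ⟨π, hπ0, hπ⟩ := exists_pow_mul_isIntUnit_of_divisible (K := K) m hg0 hdiv
      exact ⟨π, hπ0, fun _ => ⟨g, hgG, hπ⟩⟩
    · exact ⟨1, one_ne_zero, fun h => absurd h hGs⟩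
  choose π hπ0 hπ using hex
  set s' : Set L := (fun G => G * (algebraMap F L (π G))⁻¹) '' s with hs'
  have hs'top : IntermediateField.adjoin F s' = ⊤ := by
    rw [eq_top_iff, ← hs, IntermediateField.adjoin_le_iff]
    intro G hGs
    have h1 : G * (algebraMap F L (π G))⁻¹ ∈ IntermediateField.adjoin F s' :=
      IntermediateField.subset_adjoin F s' ⟨G, hGs, rfl⟩
    have h2 : algebraMap F L (π G) ∈ IntermediateField.adjoin F s' :=
      IntermediateField.algebraMap_mem _ _
    have h3 := mul_mem h1 h2
    rwa [mul_assoc, inv_mul_cancel₀ ((_root_.map_ne_zero _).2 (hπ0 G)), mul_one] at h3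
  have hmO : IsIntUnit (integralClosure A F) (m : F) := by
    have h1 : IsIntUnit A (algebraMap A F (m : A)) :=
      isIntUnit_of_isUnit hm (by
        rw [Ne, map_eq_zero_iff _ hinjAF]
        exact hm.ne_zero)
    rw [map_natCast] at h1
    exact h1.tower_top
  have hG' : ∀ G' ∈ s', G' ^ m ∈ (algebraMap F L).range ∧
      IsIntUnit (integralClosure A F) G' := by
    rintro _ ⟨G, hGs, rfl⟩
    obtain ⟨g, hgG, hu⟩ := hπ G hGs
    have hpow : (G * (algebraMap F L (π G))⁻¹) ^ m = algebraMap F L (g * (π G ^ m)⁻¹) := by
      rw [mul_pow, inv_pow, map_mul, map_inv₀, map_pow, hgG]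
    have hG0 : G * (algebraMap F L (π G))⁻¹ ≠ 0 :=
      mul_ne_zero (hG G hGs).1 (inv_ne_zero ((_root_.map_ne_zero _).2 (hπ0 G)))
    have huL : IsIntUnit (integralClosure A F) ((G * (algebraMap F L (π G))⁻¹) ^ m) := by
      rw [hpow]
      exact isIntUnit_algebraMap hu
    refine ⟨⟨_, hpow.symm⟩, hG0, IsIntegral.of_pow hm0 huL.2.1, ?_⟩
    have := huL.2.2
    rw [← inv_pow] at this
    exact IsIntegral.of_pow hm0 this
  obtain ⟨y, hy, hdy⟩ := exists_basis_isIntUnit_discr (O := integralClosure A F) (F := F)
    (L := L) m hmO s' hs'top hG'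
  exact ⟨y, fun i => isIntegral_trans _ (hy i), hdy.trans⟩

end Main

end Fermat.Agent.A2.H69
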