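import Fermat.Agent.A2.H849.Hartogs
import Mathlib.RingTheory.Localization.LocalizationLocalization
import Mathlib.RingTheory.Valuation.ValuationSubring
import Mathlib.RingTheory.DiscreteValuationRing.Basic
import Mathlib.RingTheory.Algebraic.Integral

/-!
# Cell A2 / COUNT (helper69): discrete valuation subrings over a localisation `Λ_(π)`

Complement to helper492's `A3.H492.etaleAt_of_kummer` / `exists_bases_associated_discr_of_kummer`,
whose hypothesis quantifies over the discrete valuation subrings `V` of `F` *containing* `Λ_(π)`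
(`Λ ⊆ V`, elements prime to `π` invertible in `V`).  Such a `V` automatically *lies over* `(π)`:

* `nonunit_of_valuationSubring_over` : `A` a DVR, `F / Frac A` algebraic, `V ≠ ⊤` a valuation
  subring of `F` containing `A` ⇒ the maximal ideal of `A` consists of non-units of `V`;
* `algebraMap_prime_mem_nonunits` : `Λ` a noetherian integrally closed domain, `F / Frac Λ`
  algebraic, `π` a prime element, `V` a discrete valuation subring of `F` containing `Λ` in which
  the elements prime to `π` are invertible ⇒ `π` is a non-unit of `V`.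

For `Λ = R[x]`, `π = w` this says that `V` is a sheet (extends the Gauss valuation).
-/

set_option autoImplicit false

namespace Fermat.Agent.A2.H69


section Over

variable {A K F : Type*} [CommRing A] [IsDomain A] [IsDiscreteValuationRing A]
  [Field K] [Algebra A K] [IsFractionRing A K]
  [Field F] [Algebra K F] [Algebra A F] [IsScalarTower A K F] [Algebra.IsAlgebraic K F]

include K in
/-- A valuation subring `V ≠ ⊤` of `F` containing the DVR `A` lies over the maximal ideal of
`A` (`F` algebraic over `Frac A`). -/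
theorem nonunit_of_valuationSubring_over (V : ValuationSubring F) (hV : V ≠ ⊤)
    (hAV : ∀ a : A, algebraMap A F a ∈ V) {a : A} (ha : a ∈ IsLocalRing.maximalIdeal A) :
    algebraMap A F a ∈ V.nonunits := by
  by_contra hcon
  rw [ValuationSubring.mem_nonunits_iff_or, not_or, not_not] at hcon
  obtain ⟨haF0, hainv⟩ := hcon
  have hinjAF : Function.Injective (algebraMap A F) := by
    rw [IsScalarTower.algebraMap_eq A K F]
    exact (algebraMap K F).injective.comp (IsFractionRing.injective A K)
  have ha0 : a ≠ 0 := by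
    rintro rfl
    exact haF0 (map_zero _)
  -- every nonzero element of `A` is a unit of `V`
  obtain ⟨ϖ, hϖ⟩ := IsDiscreteValuationRing.exists_irreducible A
  have hunit : ∀ b : A, b ≠ 0 → (algebraMap A F b)⁻¹ ∈ V := by
    have hϖinv : (algebraMap A F ϖ)⁻¹ ∈ V := by
      obtain ⟨n, u, hnu⟩ := IsDiscreteValuationRing.eq_unit_mul_pow_irreducible ha0 hϖ
      rcases Nat.eq_zero_or_pos n with hn | hn
      · subst hn
        rw [pow_zero, mul_one] at hnu
        rw [hnu] at ha
        exact absurd ha (by
          rw [IsLocalRing.mem_maximalIdeal, mem_nonunits_iff, not_not]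
          exact u.isUnit)
      · obtain ⟨k, rfl⟩ : ∃ k, n = k + 1 := ⟨n - 1, by omega⟩
        have hϖ0 : algebraMap A F ϖ ≠ 0 := fun h => hϖ.ne_zero (hinjAF (by rw [h, map_zero]))
        have : (algebraMap A F ϖ)⁻¹ =
            algebraMap A F ((u : A) * ϖ ^ k) * (algebraMap A F a)⁻¹ := by
          rw [hnu, map_mul, map_mul, map_pow, map_pow, pow_succ]
          have hu0 : algebraMap A F (u : A) ≠ 0 :=
            fun h => u.ne_zero (hinjAF (by rw [h, map_zero]))
          field_simp
        rw [this]
        exact V.mul_mem _ _ (hAV _) hainv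
    intro b hb
    obtain ⟨n, u, hnu⟩ := IsDiscreteValuationRing.eq_unit_mul_pow_irreducible hb hϖ
    have : (algebraMap A F b)⁻¹ =
        algebraMap A F ((u⁻¹ : Aˣ) : A) * (algebraMap A F ϖ)⁻¹ ^ n := by
      rw [hnu, map_mul, map_pow, mul_inv, inv_pow]
      congr 1
      rw [eq_comm, ← mul_eq_one_iff_eq_inv₀ (fun h => u.ne_zero (hinjAF (by rw [h, map_zero]))),
        ← map_mul, Units.inv_mul, map_one]
    rw [this]
    exact V.mul_mem _ _ (hAV _) (pow_mem hϖinv n)
  -- hence `K ⊆ V`
  have hKV : ∀ z : K, algebraMap K F z ∈ V := by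
    intro z
    obtain ⟨b, c, hc, rfl⟩ := IsFractionRing.div_surjective (A := A) z
    have hc0 : c ≠ 0 := nonZeroDivisors.ne_zero hc
    rw [map_div₀, ← IsScalarTower.algebraMap_apply, ← IsScalarTower.algebraMap_apply,
      div_eq_mul_inv]
    exact V.mul_mem _ _ (hAV b) (hunit c hc0)
  -- hence `V = ⊤`
  apply hV
  rw [eq_top_iff]
  intro f _
  have hf : IsIntegral K f := (Algebra.IsAlgebraic.isAlgebraic (R := K) f).isIntegral
  obtain ⟨p, hp, hpf⟩ := hf
  -- `f` is integral over `V`
  have hfV : IsIntegral V f := by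
    let φ : K →+* V := (algebraMap K F).codRestrict V.toSubring hKV
    refine ⟨p.map φ, hp.map φ, ?_⟩
    rw [Polynomial.eval₂_map]
    have : (algebraMap V F).comp φ = algebraMap K F := by
      ext z
      rfl
    rw [this]
    exact hpf
  have := (IsIntegrallyClosed.isIntegral_iff (R := V) (K := F)).1 hfV
  obtain ⟨v, hv⟩ := this
  rw [← hv]
  exact v.2

end Over

section Prime

variable {Λ K F : Type*} [CommRing Λ] [IsDomain Λ] [IsNoetherianRing Λ] [IsIntegrallyClosed Λ]
  [Field K] [Algebra Λ K] [IsFractionRing Λ K]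
  [Field F] [Algebra K F] [Algebra Λ F] [IsScalarTower Λ K F] [Algebra.IsAlgebraic K F]

/-- A discrete valuation subring is not the whole field. -/
theorem ne_top_of_isDiscreteValuationRing (V : ValuationSubring F)
    (hVd : IsDiscreteValuationRing V) : V ≠ ⊤ := by
  rintro rfl
  have hfield : IsField (⊤ : ValuationSubring F) := by
    refine ⟨⟨0, 1, zero_ne_one⟩, mul_comm, fun {a} ha => ?_⟩
    have ha0 : (a : F) ≠ 0 := fun h => ha (Subtype.ext h)
    exact ⟨⟨(a : F)⁻¹, ValuationSubring.mem_top _⟩, Subtype.ext (mul_inv_cancel₀ ha0)⟩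
  exact IsDiscreteValuationRing.not_isField _ hfield

include K in
/-- A discrete valuation subring `V` of `F` containing `Λ`, in which the elements prime to the
prime element `π` are invertible, lies over `(π)`: `π` is a non-unit of `V`. -/
theorem algebraMap_prime_mem_nonunits {π : Λ} (hπ : Prime π) (V : ValuationSubring F)
    (hVd : IsDiscreteValuationRing V) (hΛV : ∀ a : Λ, algebraMap Λ F a ∈ V)
    (hunits : ∀ a : Λ, ¬ π ∣ a → (algebraMap Λ F a)⁻¹ ∈ V) :
    algebraMap Λ F π ∈ V.nonunits := by
  have hP : (Ideal.span {π}).IsPrime := (Ideal.span_singleton_prime hπ.ne_zero).2 hπ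
  set A := H849.locAt K (Ideal.span {π}) with hA
  have hdvr : IsDiscreteValuationRing A :=
    H849.isDiscreteValuationRing_locAt_of_colon (K := K) (Ideal.span {π}) π 1 hπ.ne_zero
      (fun r => by rw [Ideal.mem_span_singleton, mul_one])
  have hfr : IsFractionRing A K :=
    IsFractionRing.isFractionRing_of_isDomain_of_isLocalization (Ideal.span {π}).primeCompl A K
  have towAKF : IsScalarTower A K F := IsScalarTower.of_algebraMap_eq (fun _ => rfl)
  have towΛAF : IsScalarTower Λ A F := IsScalarTower.of_algebraMap_eq (fun r => by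
    rw [IsScalarTower.algebraMap_apply Λ K F]
    rfl)
  have hAV : ∀ a : A, algebraMap A F a ∈ V := by
    rintro ⟨z, hz⟩
    obtain ⟨a, t, ht, rfl⟩ := (H849.mem_locAt_iff (Ideal.span {π}) z).1 hz
    have h1 : algebraMap A F ⟨algebraMap Λ K a * (algebraMap Λ K t)⁻¹, hz⟩ =
        algebraMap Λ F a * (algebraMap Λ F t)⁻¹ := by
      change algebraMap K F (algebraMap Λ K a * (algebraMap Λ K t)⁻¹) = _
      rw [map_mul, map_inv₀, ← IsScalarTower.algebraMap_apply, ← IsScalarTower.algebraMap_apply]
    rw [h1]
    exact V.mul_mem _ _ (hΛV a) (hunits t (fun hd => ht (Ideal.mem_span_singleton.2 hd)))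
  have hmax : algebraMap Λ A π ∈ IsLocalRing.maximalIdeal A := by
    rw [← IsLocalization.AtPrime.map_eq_maximalIdeal (Ideal.span {π}) A]
    exact Ideal.mem_map_of_mem _ (Ideal.mem_span_singleton_self π)
  have := nonunit_of_valuationSubring_over (K := K) V
    (ne_top_of_isDiscreteValuationRing V hVd) hAV hmax
  rwa [← IsScalarTower.algebraMap_apply Λ A F] at this

end Prime

end Fermat.Agent.A2.H69
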