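import Fermat.Agent.A2.H69.DvrOver
import Fermat.Agent.A2.H12.GSpec

/-!
# Cell A2 / route G, leaf COUNT (helper69): the local Kummer hypothesis in route-G vocabulary

Instantiation at `Λ = R[X]` (acting on `F` through `x`) of the hypothesis `hG` of helper492's
`A3.H492.exists_bases_associated_discr_of_kummer` (`disc (B'/w) ~ disc (B/w) ^ [L : F]`):

> for every prime element `π` of `R[X]` and every discrete valuation subring `V` of `F` containing
> `R[x]` in which the elements prime to `π` are invertible, `g = u * h ^ m` with `u ∈ Vˣ`.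

* `unit_of_split` : `g ≡ u ^ m` modulo `𝔪_V` with `u ≠ 0`, `u, u⁻¹ ∈ V` ⇒ `g ∈ Vˣ`
  (NB: `H12.SplitAt` does not record `u ≠ 0`);
* `isSheet_of_dvr_over` : (vertical prime) a DVR of `F` over `R[x]_(w)` is a sheet, `IsSheet w x V`;
* `units_of_dvr_over` : (horizontal primes) a DVR of `F` over `R[x]_(π)`, `π ∤ w`, contains
  `(Frac R)ˣ`;
* `kummer_local_of_routeG` : `HorDiv R m g` + (`g` a unit at every sheet) ⇒ the hypothesis above.
-/

set_option autoImplicit false

namespace Fermat.Agent.A2.H69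

open Polynomial
open Fermat.Agent.A2.H12 (IsSheet SplitAt HorDiv)

universe u

section Sheet

variable {F : Type*} [Field F]

/-- `g ≡ u ^ m` modulo `𝔪_V` with `u` a unit of `V` ⇒ `g` is a unit of `V`. -/
theorem unit_of_split {m : ℕ} {V : ValuationSubring F} {g u : F} (hu0 : u ≠ 0) (hu : u ∈ V)
    (hu' : u⁻¹ ∈ V) (hgu : g - u ^ m ∈ V.nonunits) : g ∈ V ∧ g⁻¹ ∈ V := by
  have hum : u ^ m ∈ V := pow_mem hu m
  have hum' : (u ^ m)⁻¹ ∈ V := by
    rw [← inv_pow]
    exact pow_mem hu' m
  have hg : g ∈ V := by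
    have : g = (g - u ^ m) + u ^ m := by ring
    rw [this]
    exact V.add_mem _ _ (ValuationSubring.nonunits_subset hgu) hum
  refine ⟨hg, ?_⟩
  by_contra hni
  have hgn : g ∈ V.nonunits := by
    rw [ValuationSubring.mem_nonunits_iff_or]
    exact Or.inr hni
  have h1 : u ^ m ∈ V.nonunits := by
    have : u ^ m = g - (g - u ^ m) := by ring
    rw [this]
    exact V.nonunits.sub_mem hgn hgu
  rw [ValuationSubring.mem_nonunits_iff_or] at h1
  rcases h1 with h1 | h1
  · exact pow_ne_zero m hu0 h1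
  · exact h1 hum'

end Sheet

section RouteG

variable {R : Type u} [CommRing R] [IsDomain R] [IsNoetherianRing R[X]] [IsIntegrallyClosed R[X]]
  {K : Type*} [Field K] [Algebra R[X] K] [IsFractionRing R[X] K]
  {F : Type u} [Field F] [Algebra R F] [Algebra K F] [Algebra R[X] F] [IsScalarTower R[X] K F]
  [Algebra.IsAlgebraic K F]

include K in
/-- **Vertical prime.**  A discrete valuation subring of `F` containing `R[x]` in which the
polynomials prime to `w` are invertible is a sheet. -/
theorem isSheet_of_dvr_over {w : R} (hw : Prime w) (x : F)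
    (hx : ∀ P : R[X], algebraMap R[X] F P = aeval x P)
    (V : ValuationSubring F) (hVd : IsDiscreteValuationRing V)
    (hΛV : ∀ a : R[X], algebraMap R[X] F a ∈ V)
    (hunits : ∀ a : R[X], ¬ C w ∣ a → (algebraMap R[X] F a)⁻¹ ∈ V) :
    IsSheet w x V := by
  have hCw : Prime (C w : R[X]) := Polynomial.prime_C_iff.2 hw
  refine ⟨fun r => ?_, ?_, ?_, fun P hP => ?_⟩
  · have := hΛV (C r)
    rwa [hx, aeval_C] at this
  · have := hΛV X
    rwa [hx, aeval_X] at this
  · have := algebraMap_prime_mem_nonunits (K := K) hCw V hVd hΛV hunits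
    rwa [hx, aeval_C] at this
  · have := hunits P (fun hd => by
      obtain ⟨i, hi⟩ := hP
      exact hi ((Polynomial.C_dvd_iff_dvd_coeff w P).1 hd i))
    rwa [hx] at this

omit [IsDomain R] [IsNoetherianRing R[X]] [IsIntegrallyClosed R[X]] in
/-- **Horizontal primes.**  If every nonzero element of `R` is a unit times a power of `w` and
`π ∤ w`, a valuation subring of `F` containing `R[x]` in which the elements prime to `π` are
invertible contains the inverses of the nonzero elements of `R`. -/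
theorem units_of_dvr_over {w : R}
    (hR : ∀ r : R, r ≠ 0 → ∃ (n : ℕ) (u : R), IsUnit u ∧ r = u * w ^ n) (x : F)
    (hx : ∀ P : R[X], algebraMap R[X] F P = aeval x P)
    {π : R[X]} (hπ : Prime π) (hπw : ¬ π ∣ C w) (V : ValuationSubring F)
    (hΛV : ∀ a : R[X], algebraMap R[X] F a ∈ V)
    (hunits : ∀ a : R[X], ¬ π ∣ a → (algebraMap R[X] F a)⁻¹ ∈ V) (r : R) (hr : r ≠ 0) :
    algebraMap R F r ∈ V ∧ (algebraMap R F r)⁻¹ ∈ V := by
  have h1 : algebraMap R[X] F (C r) = algebraMap R F r := by rw [hx, aeval_C]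
  rw [← h1]
  refine ⟨hΛV _, hunits _ fun hd => ?_⟩
  obtain ⟨n, u, hu, rfl⟩ := hR r hr
  rw [C_mul, C_pow] at hd
  rcases hπ.dvd_or_dvd hd with h | h
  · exact hπ.not_isUnit (isUnit_of_dvd_unit h (hu.map C))
  · exact hπw (hπ.dvd_of_dvd_pow h)

include K in
/-- **The local Kummer hypothesis of `H492.exists_bases_associated_discr_of_kummer` in route-G
vocabulary**: `HorDiv R m g` and `g` a unit at every sheet of `F`. -/
theorem kummer_local_of_routeG {w : R} (hw : Prime w)
    (hR : ∀ r : R, r ≠ 0 → ∃ (n : ℕ) (u : R), IsUnit u ∧ r = u * w ^ n) (x : F)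
    (hx : ∀ P : R[X], algebraMap R[X] F P = aeval x P) (m : ℕ) {g : F}
    (hhor : HorDiv R m g) (hvert : ∀ V : ValuationSubring F, IsSheet w x V → g ∈ V ∧ g⁻¹ ∈ V)
    (π : R[X]) (hπ : Prime π) (V : ValuationSubring F) (hVd : IsDiscreteValuationRing V)
    (hΛV : ∀ a : R[X], algebraMap R[X] F a ∈ V)
    (hunits : ∀ a : R[X], ¬ π ∣ a → (algebraMap R[X] F a)⁻¹ ∈ V) :
    ∃ h u : F, h ≠ 0 ∧ u ∈ V ∧ u⁻¹ ∈ V ∧ g = u * h ^ m := by
  by_cases hπw : π ∣ C w
  · -- vertical
    have hCw : Prime (C w : R[X]) := Polynomial.prime_C_iff.2 hw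
    have hass : Associated π (C w) := hπ.associated_of_dvd hCw hπw
    have hsheet : IsSheet w x V := isSheet_of_dvr_over (K := K) hw x hx V hVd hΛV
      (fun a ha => hunits a (fun hd => ha (hass.dvd_iff_dvd_left.1 hd)))
    obtain ⟨h1, h2⟩ := hvert V hsheet
    exact ⟨1, g, one_ne_zero, h1, h2, by rw [one_pow, mul_one]⟩
  · -- horizontal
    exact hhor V hVd (fun r hr => units_of_dvr_over hR x hx hπ hπw V hΛV hunits r hr)

end RouteG

end Fermat.Agent.A2.H69
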